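/-
S25 package TWIST: the vocabulary (helper9130, deputy captain).  Definitions only, no sorry.
All glued-module constructions are `@[reducible]` (as `Ten.tensor`, `GluedModule.unit`, `twist`).

* `ofIdeals 𝔹 a₁ a₂ h` : the glued module ("ideal sheaf") of an ideal datum on a two-chart;
  `ofIdeal₁ 𝔹 I`, `ofIdeal₂ 𝔹 I` : the ideal datum generated by an ideal of one chart
  (the scheme-theoretic closure of `V(I)`);
* `pointEval₁ 𝒞 x`, `pointEval₂ 𝒞 x` : evaluation `R ⊗ A_i → R` at an `R`-point `x : A_i →ₐ[k] R`;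
  `Γ₁ 𝒞 x`, `Γ₂ 𝒞 x` : the graph ideal sheaf `O(-Γ_x)` on `𝒞.chart R`; `epsPt 𝒞 R` : the point `ε`;
* `pull 𝔹 E` : the pull-back `π^* E` of a module of the base (`B_i ⊗[R] E`);
* `Tw₁ 𝒞 R x L L'`, `Tw₂ 𝒞 R x L L'` : "`L'` is a rigid line bundle with
  `L' ⊗ O(-Γ_x) ≅ L ⊗ O(-ε) ⊗ π^* E` for an invertible `R`-module `E`" (= `L' ≅ L(Γ_x - ε)`
  Zariski-locally on `Spec R`);
* `genus 𝒞 = dim_k H¹(O)`.
-/
import Fermat.Agent.S25.BC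
import Fermat.Agent.S25.AlgDefs
import Fermat.Agent.S25.TWIST.TensorIso

set_option autoImplicit false
set_option linter.style.haveILetI false

universe u

namespace Fermat.Agent.S25.TWIST

open scoped TensorProduct

open GluedModule

/-! ### Ideal data as glued modules -/

section ofIdeals

variable {R : Type u} [CommRing R] (𝔹 : TwoChart R)

/-- Elements of the extension of an ideal of `B₁` to `B₁₂ = B₁[1/f]`. -/
theorem mem_map_r₁ (I : Ideal 𝔹.B₁) (y : 𝔹.B₁₂) (hy : y ∈ I.map 𝔹.r₁.toRingHom) :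
    ∃ a ∈ I, ∃ m : ℕ, y = 𝔹.r₂ 𝔹.g ^ m * 𝔹.r₁ a := by
  letI := 𝔹.algebra₁
  haveI := 𝔹.isLocalization₁
  obtain ⟨⟨a, s⟩, h⟩ :=
    (IsLocalization.mem_map_algebraMap_iff (Submonoid.powers 𝔹.f) 𝔹.B₁₂).mp hy
  obtain ⟨m, hm⟩ := s.2
  refine ⟨a.1, a.2, m, ?_⟩
  have h' : y * 𝔹.r₁ (𝔹.f ^ m) = 𝔹.r₁ a.1 := by
    have : (s : 𝔹.B₁) = 𝔹.f ^ m := hm.symm
    rw [← this]; exact h
  rw [← h', map_pow, mul_comm y, ← mul_assoc, ← mul_pow, 𝔹.gf, one_pow, one_mul]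

/-- Elements of the extension of an ideal of `B₂` to `B₁₂ = B₂[1/g]`. -/
theorem mem_map_r₂ (I : Ideal 𝔹.B₂) (y : 𝔹.B₁₂) (hy : y ∈ I.map 𝔹.r₂.toRingHom) :
    ∃ a ∈ I, ∃ m : ℕ, y = 𝔹.r₁ 𝔹.f ^ m * 𝔹.r₂ a := by
  letI := 𝔹.algebra₂
  haveI := 𝔹.isLocalization₂
  obtain ⟨⟨a, s⟩, h⟩ :=
    (IsLocalization.mem_map_algebraMap_iff (Submonoid.powers 𝔹.g) 𝔹.B₁₂).mp hy
  obtain ⟨m, hm⟩ := s.2
  refine ⟨a.1, a.2, m, ?_⟩
  have h' : y * 𝔹.r₂ (𝔹.g ^ m) = 𝔹.r₂ a.1 := by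
    have : (s : 𝔹.B₂) = 𝔹.g ^ m := hm.symm
    rw [← this]; exact h
  rw [← h', map_pow, mul_comm y, ← mul_assoc, ← mul_pow, 𝔹.fg, one_pow, one_mul]

/-- The glued module ("ideal sheaf") of a pair of ideals with the same extension to the
overlap. -/
@[reducible] def ofIdeals (a₁ : Ideal 𝔹.B₁) (a₂ : Ideal 𝔹.B₂)
    (h : a₁.map 𝔹.r₁.toRingHom = a₂.map 𝔹.r₂.toRingHom) : GluedModule 𝔹 where
  N₁ := a₁
  N₂ := a₂
  N₁₂ := (a₁.map 𝔹.r₁.toRingHom : Ideal 𝔹.B₁₂)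
  ι₁ :=
    { toFun := fun x => ⟨𝔹.r₁ x.1, Ideal.mem_map_of_mem 𝔹.r₁.toRingHom x.2⟩
      map_add' := fun x y => Subtype.ext (map_add 𝔹.r₁ (x : 𝔹.B₁) (y : 𝔹.B₁))
      map_smul' := fun c x => Subtype.ext (map_smul 𝔹.r₁ c (x : 𝔹.B₁)) }
  ι₂ :=
    { toFun := fun x => ⟨𝔹.r₂ x.1, h ▸ Ideal.mem_map_of_mem 𝔹.r₂.toRingHom x.2⟩
      map_add' := fun x y => Subtype.ext (map_add 𝔹.r₂ (x : 𝔹.B₂) (y : 𝔹.B₂))
      map_smul' := fun c x => Subtype.ext (map_smul 𝔹.r₂ c (x : 𝔹.B₂)) }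
  ι₁_smul := fun b n => Subtype.ext (map_mul 𝔹.r₁ b (n : 𝔹.B₁))
  ι₂_smul := fun b n => Subtype.ext (map_mul 𝔹.r₂ b (n : 𝔹.B₂))
  surj₁ := fun y => by
    obtain ⟨a, ha, m, hy⟩ := mem_map_r₁ 𝔹 a₁ y.1 y.2
    exact ⟨⟨a, ha⟩, m, Subtype.ext hy⟩
  ker₁ := fun n hn => by
    obtain ⟨m, hm⟩ := 𝔹.ker₁ n.1 (congrArg Subtype.val hn)
    exact ⟨m, Subtype.ext hm⟩
  surj₂ := fun y => by
    obtain ⟨a, ha, m, hy⟩ := mem_map_r₂ 𝔹 a₂ y.1 (h ▸ y.2)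
    exact ⟨⟨a, ha⟩, m, Subtype.ext hy⟩
  ker₂ := fun n hn => by
    obtain ⟨m, hm⟩ := 𝔹.ker₂ n.1 (congrArg Subtype.val hn)
    exact ⟨m, Subtype.ext hm⟩

/-- `I B₁₂ = (r₂⁻¹(I B₁₂)) B₁₂` for an ideal `I` of the first chart. -/
theorem map_comap_map₂ (I : Ideal 𝔹.B₁) : I.map 𝔹.r₁.toRingHom =
    ((I.map 𝔹.r₁.toRingHom).comap 𝔹.r₂.toRingHom).map 𝔹.r₂.toRingHom := by
  apply le_antisymm
  · intro y hy
    obtain ⟨a, n, rfl⟩ := 𝔹.surj₂ y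
    have ha : a ∈ (I.map 𝔹.r₁.toRingHom).comap 𝔹.r₂.toRingHom := by
      rw [Ideal.mem_comap]
      have : 𝔹.r₂.toRingHom a = (𝔹.r₂ a * 𝔹.r₁ 𝔹.f ^ n) * 𝔹.r₂ 𝔹.g ^ n := by
        change 𝔹.r₂ a = _
        rw [mul_assoc, ← mul_pow, 𝔹.fg, one_pow, mul_one]
      rw [this]
      exact Ideal.mul_mem_right _ _ hy
    exact Ideal.mul_mem_right _ _ (Ideal.mem_map_of_mem 𝔹.r₂.toRingHom ha)
  · exact Ideal.map_comap_le

/-- `(r₁⁻¹(I B₁₂)) B₁₂ = I B₁₂` for an ideal `I` of the second chart. -/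
theorem map_comap_map₁ (I : Ideal 𝔹.B₂) :
    ((I.map 𝔹.r₂.toRingHom).comap 𝔹.r₁.toRingHom).map 𝔹.r₁.toRingHom =
      I.map 𝔹.r₂.toRingHom := by
  apply le_antisymm
  · exact Ideal.map_comap_le
  · intro y hy
    obtain ⟨a, n, rfl⟩ := 𝔹.surj₁ y
    have ha : a ∈ (I.map 𝔹.r₂.toRingHom).comap 𝔹.r₁.toRingHom := by
      rw [Ideal.mem_comap]
      have : 𝔹.r₁.toRingHom a = (𝔹.r₁ a * 𝔹.r₂ 𝔹.g ^ n) * 𝔹.r₁ 𝔹.f ^ n := by
        change 𝔹.r₁ a = _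
        rw [mul_assoc, ← mul_pow, 𝔹.gf, one_pow, mul_one]
      rw [this]
      exact Ideal.mul_mem_right _ _ hy
    exact Ideal.mul_mem_right _ _ (Ideal.mem_map_of_mem 𝔹.r₁.toRingHom ha)

/-- The ideal sheaf of the closure of `V(I)`, `I` an ideal of the first chart:
`(I, r₂⁻¹(I B₁₂), I B₁₂)`. -/
@[reducible] def ofIdeal₁ (I : Ideal 𝔹.B₁) : GluedModule 𝔹 :=
  ofIdeals 𝔹 I ((I.map 𝔹.r₁.toRingHom).comap 𝔹.r₂.toRingHom) (map_comap_map₂ 𝔹 I)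

/-- The ideal sheaf of the closure of `V(I)`, `I` an ideal of the second chart:
`(r₁⁻¹(I B₁₂), I, I B₁₂)`. -/
@[reducible] def ofIdeal₂ (I : Ideal 𝔹.B₂) : GluedModule 𝔹 :=
  ofIdeals 𝔹 ((I.map 𝔹.r₂.toRingHom).comap 𝔹.r₁.toRingHom) I (map_comap_map₁ 𝔹 I)

end ofIdeals

/-! ### Pull-back of a module of the base -/

section pull

variable {R : Type u} [CommRing R] (𝔹 : TwoChart R) (E : Type u) [AddCommGroup E] [Module R E]

theorem pull_isLocalizedModule₁ :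
    letI := 𝔹.algebra₁
    IsLocalizedModule (Submonoid.powers 𝔹.f)
      (TensorProduct.AlgebraTensorModule.rTensor R E (Algebra.linearMap 𝔹.B₁ 𝔹.B₁₂)) := by
  letI := 𝔹.algebra₁
  haveI := 𝔹.isLocalization₁
  haveI : IsScalarTower R 𝔹.B₁ 𝔹.B₁₂ :=
    IsScalarTower.of_algebraMap_eq fun x => (𝔹.r₁.commutes x).symm
  infer_instance

theorem pull_isLocalizedModule₂ :
    letI := 𝔹.algebra₂
    IsLocalizedModule (Submonoid.powers 𝔹.g)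
      (TensorProduct.AlgebraTensorModule.rTensor R E (Algebra.linearMap 𝔹.B₂ 𝔹.B₁₂)) := by
  letI := 𝔹.algebra₂
  haveI := 𝔹.isLocalization₂
  haveI : IsScalarTower R 𝔹.B₂ 𝔹.B₁₂ :=
    IsScalarTower.of_algebraMap_eq fun x => (𝔹.r₂.commutes x).symm
  infer_instance

/-- The pull-back `π^* E = (B₁ ⊗[R] E, B₂ ⊗[R] E, B₁₂ ⊗[R] E)` of an `R`-module `E`. -/
@[reducible] noncomputable def pull : GluedModule 𝔹 where
  N₁ := 𝔹.B₁ ⊗[R] E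
  N₂ := 𝔹.B₂ ⊗[R] E
  N₁₂ := 𝔹.B₁₂ ⊗[R] E
  ι₁ := LinearMap.rTensor E 𝔹.r₁.toLinearMap
  ι₂ := LinearMap.rTensor E 𝔹.r₂.toLinearMap
  ι₁_smul := fun b n => by
    induction n using TensorProduct.induction_on with
    | zero => simp
    | tmul c e => simp [TensorProduct.smul_tmul']
    | add x y hx hy => simp only [smul_add, map_add, hx, hy]
  ι₂_smul := fun b n => by
    induction n using TensorProduct.induction_on with
    | zero => simp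
    | tmul c e => simp [TensorProduct.smul_tmul']
    | add x y hx hy => simp only [smul_add, map_add, hx, hy]
  surj₁ := fun y => by
    letI := 𝔹.algebra₁
    haveI : IsScalarTower R 𝔹.B₁ 𝔹.B₁₂ :=
      IsScalarTower.of_algebraMap_eq fun x => (𝔹.r₁.commutes x).symm
    haveI := pull_isLocalizedModule₁ 𝔹 E
    exact exists_eq_pow_smul_of_isLocalizedModule 𝔹.f (𝔹.r₂ 𝔹.g)
      (TensorProduct.AlgebraTensorModule.rTensor R E (Algebra.linearMap 𝔹.B₁ 𝔹.B₁₂)) 𝔹.fg y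
  ker₁ := fun n hn => by
    letI := 𝔹.algebra₁
    haveI : IsScalarTower R 𝔹.B₁ 𝔹.B₁₂ :=
      IsScalarTower.of_algebraMap_eq fun x => (𝔹.r₁.commutes x).symm
    haveI := pull_isLocalizedModule₁ 𝔹 E
    exact exists_pow_smul_eq_zero_of_isLocalizedModule 𝔹.f
      (TensorProduct.AlgebraTensorModule.rTensor R E (Algebra.linearMap 𝔹.B₁ 𝔹.B₁₂)) n hn
  surj₂ := fun y => by
    letI := 𝔹.algebra₂
    haveI : IsScalarTower R 𝔹.B₂ 𝔹.B₁₂ :=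
      IsScalarTower.of_algebraMap_eq fun x => (𝔹.r₂.commutes x).symm
    haveI := pull_isLocalizedModule₂ 𝔹 E
    exact exists_eq_pow_smul_of_isLocalizedModule 𝔹.g (𝔹.r₁ 𝔹.f)
      (TensorProduct.AlgebraTensorModule.rTensor R E (Algebra.linearMap 𝔹.B₂ 𝔹.B₁₂)) 𝔹.gf y
  ker₂ := fun n hn => by
    letI := 𝔹.algebra₂
    haveI : IsScalarTower R 𝔹.B₂ 𝔹.B₁₂ :=
      IsScalarTower.of_algebraMap_eq fun x => (𝔹.r₂.commutes x).symm
    haveI := pull_isLocalizedModule₂ 𝔹 E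
    exact exists_pow_smul_eq_zero_of_isLocalizedModule 𝔹.g
      (TensorProduct.AlgebraTensorModule.rTensor R E (Algebra.linearMap 𝔹.B₂ 𝔹.B₁₂)) n hn

end pull

/-! ### Points of the charts and their graph ideal sheaves -/

section point

variable {k : Type u} [Field k] (𝒞 : CurveData k) {R : Type u} [CommRing R] [Algebra k R]

/-- Evaluation at an `R`-point of the first chart: `R ⊗ A₁ → R`, `r ⊗ a ↦ r * x a`. -/
noncomputable def pointEval₁ (x : 𝒞.A₁ →ₐ[k] R) : (𝒞.chart R).B₁ →ₐ[R] R :=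
  Algebra.TensorProduct.lift (AlgHom.id R R) x (fun _ _ => Commute.all _ _)

/-- Evaluation at an `R`-point of the second chart: `R ⊗ A₂ → R`, `r ⊗ a ↦ r * x a`. -/
noncomputable def pointEval₂ (x : 𝒞.A₂ →ₐ[k] R) : (𝒞.chart R).B₂ →ₐ[R] R :=
  Algebra.TensorProduct.lift (AlgHom.id R R) x (fun _ _ => Commute.all _ _)

/-- The graph ideal sheaf `O(-Γ_x)` of an `R`-point of the first chart. -/
@[reducible] noncomputable def Γ₁ (x : 𝒞.A₁ →ₐ[k] R) : GluedModule (𝒞.chart R) :=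
  ofIdeal₁ (𝒞.chart R) (RingHom.ker (pointEval₁ 𝒞 x).toRingHom)

/-- The graph ideal sheaf `O(-Γ_x)` of an `R`-point of the second chart. -/
@[reducible] noncomputable def Γ₂ (x : 𝒞.A₂ →ₐ[k] R) : GluedModule (𝒞.chart R) :=
  ofIdeal₂ (𝒞.chart R) (RingHom.ker (pointEval₂ 𝒞 x).toRingHom)

variable (R) in
/-- The constant `R`-point `ε` of the first chart. -/
noncomputable def epsPt : 𝒞.A₁ →ₐ[k] R := (Algebra.ofId k R).comp 𝒞.ε

theorem epsR_eq_pointEval₁ : 𝒞.epsR R = pointEval₁ 𝒞 (epsPt 𝒞 R) := rfl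

/-- "`L'` is a rigid line bundle with `L' ⊗ P ≅ L ⊗ O(-ε) ⊗ π^* E`, `E` an invertible
`R`-module" (`P` will be a graph ideal sheaf `O(-Γ_x)`). -/
def TwP (P L L' : GluedModule (𝒞.chart R)) : Prop :=
  L.IsLineBundle ∧ L'.IsLineBundle ∧ Rigid 𝒞 L' ∧
    ∃ (E : Type u) (_ : AddCommGroup E) (_ : Module R E), Module.Invertible R E ∧
      Nonempty (Iso (Ten.tensor L' P)
        (Ten.tensor (Ten.tensor L (Γ₁ 𝒞 (epsPt 𝒞 R))) (pull (𝒞.chart R) E)))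

variable (R) in
/-- "`L'` is a rigid line bundle with `L' ⊗ O(-Γ_x) ≅ L ⊗ O(-ε) ⊗ π^* E`, `E` an invertible
`R`-module", `x` an `R`-point of the first chart. -/
def Tw₁ (x : 𝒞.A₁ →ₐ[k] R) (L L' : GluedModule (𝒞.chart R)) : Prop :=
  TwP 𝒞 (Γ₁ 𝒞 x) L L'

variable (R) in
/-- "`L'` is a rigid line bundle with `L' ⊗ O(-Γ_x) ≅ L ⊗ O(-ε) ⊗ π^* E`, `E` an invertible
`R`-module", `x` an `R`-point of the second chart. -/
def Tw₂ (x : 𝒞.A₂ →ₐ[k] R) (L L' : GluedModule (𝒞.chart R)) : Prop :=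
  TwP 𝒞 (Γ₂ 𝒞 x) L L'

/-- The genus `dim_k H¹(C, O)`. -/
noncomputable def genus : ℕ := Module.finrank k (GluedModule.unit (𝒞.chart k)).H1

end point

end Fermat.Agent.S25.TWIST
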