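/-
S25 package TWIST, leaf file G1 (STUB): graph ideal sheaves of points (line bundles, base change, overlap).
Statements FROZEN (captain helper9130). ALL DONE: G1a G1a' G1b G1b' = helper3108 (`G1/Gamma3108.lean`), G1c = helper9130
(`G1/Overlap9130.lean`); see `BOARD_S25_TWIST.md`.
-/
import Fermat.Agent.S25.TWIST.Defs
import Fermat.Agent.S25.TWIST.G1.Overlap9130
import Fermat.Agent.S25.TWIST.G1.Gamma3108

set_option autoImplicit false

universe u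

namespace Fermat.Agent.S25.TWIST

open scoped TensorProduct

open GluedModule Ten

variable {k : Type u} [Field k] (𝒞 : CurveData k)

/-! ### G1: graph ideal sheaves of points -/

section G1

variable [IsAlgClosed k] {R : Type u} [CommRing R] [Algebra k R]

/-- (G1a) The graph ideal sheaf of a point of the first chart is a line bundle. -/
theorem Γ₁_isLineBundle (x : 𝒞.A₁ →ₐ[k] R) : (Γ₁ 𝒞 x).IsLineBundle :=
  G1.H3108.Γ₁_isLineBundle 𝒞 x

/-- (G1a') The graph ideal sheaf of a point of the second chart is a line bundle. -/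
theorem Γ₂_isLineBundle (x : 𝒞.A₂ →ₐ[k] R) : (Γ₂ 𝒞 x).IsLineBundle :=
  G1.H3108.Γ₂_isLineBundle 𝒞 x

/-- (G1b) Base change of the graph ideal sheaf (first chart). -/
theorem isBC_Γ₁ {R' : Type u} [CommRing R'] [Algebra k R'] (φ : R →ₐ[k] R')
    (x : 𝒞.A₁ →ₐ[k] R) : IsBC (𝒞.chartHom φ) (Γ₁ 𝒞 x) (Γ₁ 𝒞 (φ.comp x)) :=
  G1.H3108.isBC_Γ₁ 𝒞 φ x

/-- (G1b') Base change of the graph ideal sheaf (second chart). -/
theorem isBC_Γ₂ {R' : Type u} [CommRing R'] [Algebra k R'] (φ : R →ₐ[k] R')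
    (x : 𝒞.A₂ →ₐ[k] R) : IsBC (𝒞.chartHom φ) (Γ₂ 𝒞 x) (Γ₂ 𝒞 (φ.comp x)) :=
  G1.H3108.isBC_Γ₂ 𝒞 φ x

/-- (G1c) The two descriptions of a point of the overlap give the same ideal sheaf. -/
theorem Γ_overlap (x : 𝒞.A₁₂ →ₐ[k] R) :
    Nonempty (Iso (Γ₁ 𝒞 (x.comp 𝒞.r₁)) (Γ₂ 𝒞 (x.comp 𝒞.r₂))) :=
  G1.H9130.Γ_overlap 𝒞 x

end G1

end Fermat.Agent.S25.TWIST
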