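/-
S25 package TWIST, leaf file G2 (STUB): pull-backs of modules of the base.
Statements FROZEN (captain helper9130). ALL DONE: G2a, G2b, G2c, G2e = helper9130 (`G2/Pull9130.lean`), G2d = helper3050
(`G2/IsBCPull3050.lean`); see `BOARD_S25_TWIST.md`.
-/
import Fermat.Agent.S25.TWIST.Defs
import Fermat.Agent.S25.TWIST.G2.Pull9130
import Fermat.Agent.S25.TWIST.G2.IsBCPull3050

set_option autoImplicit false

universe u

namespace Fermat.Agent.S25.TWIST

open scoped TensorProduct

open GluedModule Ten

variable {k : Type u} [Field k] (𝒞 : CurveData k)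

/-! ### G2: pull-backs of modules of the base -/

section G2

variable {R : Type u} [CommRing R]

/-- (G2a) The pull-back of an invertible module is a line bundle. -/
theorem pull_isLineBundle (𝔹 : TwoChart R) (E : Type u) [AddCommGroup E] [Module R E]
    [Module.Invertible R E] : (pull 𝔹 E).IsLineBundle :=
  G2.H9130.pull_isLineBundle 𝔹 E

/-- (G2b) Functoriality of the pull-back for isomorphisms. -/
theorem pull_iso (𝔹 : TwoChart R) (E E' : Type u) [AddCommGroup E] [Module R E]
    [AddCommGroup E'] [Module R E'] (e : E ≃ₗ[R] E') : Nonempty (Iso (pull 𝔹 E) (pull 𝔹 E')) :=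
  G2.H9130.pull_iso 𝔹 E E' e

/-- (G2c) The pull-back of the base ring is the structure sheaf. -/
theorem pull_self_iso_unit (𝔹 : TwoChart R) : Nonempty (Iso (pull 𝔹 R) (GluedModule.unit 𝔹)) :=
  G2.H9130.pull_self_iso_unit 𝔹

/-- (G2d) Base change of a pull-back is the pull-back of an invertible module. -/
theorem isBC_pull [Algebra k R] {R' : Type u} [CommRing R'] [Algebra k R'] (φ : R →ₐ[k] R')
    (E : Type u) [AddCommGroup E] [Module R E] [Module.Invertible R E] :
    ∃ (E' : Type u) (_ : AddCommGroup E') (_ : Module R' E'), Module.Invertible R' E' ∧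
      IsBC (𝒞.chartHom φ) (pull (𝒞.chart R) E) (pull (𝒞.chart R') E') :=
  G2.H3050.isBC_pull 𝒞 φ E

/-- (G2e) An invertible module over a field is free of rank one. -/
theorem invertible_field_equiv (κ : Type u) [Field κ] (E : Type u) [AddCommGroup E] [Module κ E]
    [Module.Invertible κ E] : Nonempty (E ≃ₗ[κ] κ) :=
  G2.H9130.invertible_field_equiv κ E

end G2

end Fermat.Agent.S25.TWIST
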