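/-
S25 package TWIST, leaf file G3 (STUB): the tensor product commutes with base change.
Statements FROZEN (captain helper9130). DONE: G3 = helper3430 (`G3/IsBCTensor3430.lean`); see `BOARD_S25_TWIST.md`.
-/
import Fermat.Agent.S25.TWIST.Defs
import Fermat.Agent.S25.TWIST.G3.IsBCTensor3430

set_option autoImplicit false

universe u

namespace Fermat.Agent.S25.TWIST

open scoped TensorProduct

open GluedModule Ten

variable {k : Type u} [Field k] (𝒞 : CurveData k)

/-! ### G3: base change of tensor products -/

section G3

variable {R R' : Type u} [CommRing R] [Algebra k R] [CommRing R'] [Algebra k R']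

/-- (G3) The tensor product commutes with base change. -/
theorem isBC_tensor (φ : R →ₐ[k] R') (L M : GluedModule (𝒞.chart R))
    (L' M' : GluedModule (𝒞.chart R')) (hL : IsBC (𝒞.chartHom φ) L L')
    (hM : IsBC (𝒞.chartHom φ) M M') : IsBC (𝒞.chartHom φ) (tensor L M) (tensor L' M') :=
  G3.H3430.isBC_tensor 𝒞 φ L M L' M' hL hM

end G3

end Fermat.Agent.S25.TWIST
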