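/-
S25 package TWIST, leaf file G4 (STUB): rigidity (the `ε`-fibre).
Statements FROZEN (captain helper9130). ALL DONE: G4a = helper9130 (`G4/RigidIso9130.lean`), G4b G4c G4d = helper7428
(`G4/Rigid7428.lean`); see `BOARD_S25_TWIST.md`.
-/
import Fermat.Agent.S25.TWIST.Defs
import Fermat.Agent.S25.TWIST.G4.RigidIso9130
import Fermat.Agent.S25.TWIST.G4.Rigid7428

set_option autoImplicit false

universe u

namespace Fermat.Agent.S25.TWIST

open scoped TensorProduct

open GluedModule Ten

variable {k : Type u} [Field k] (𝒞 : CurveData k)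

/-! ### G4: rigidity -/

section G4

variable {R : Type u} [CommRing R] [Algebra k R]

/-- (G4a) Rigidity is invariant under isomorphism. -/
theorem rigid_of_iso (L L' : GluedModule (𝒞.chart R)) (e : Nonempty (Iso L L'))
    (h : Rigid 𝒞 L) : Rigid 𝒞 L' :=
  G4.H9130.rigid_of_iso 𝒞 L L' e h

/-- (G4b) Rigidity is stable under base change. -/
theorem rigid_of_isBC {R' : Type u} [CommRing R'] [Algebra k R'] (φ : R →ₐ[k] R')
    (L : GluedModule (𝒞.chart R)) (L' : GluedModule (𝒞.chart R')) (h : Rigid 𝒞 L)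
    (hbc : IsBC (𝒞.chartHom φ) L L') : Rigid 𝒞 L' :=
  G4.H7428.rigid_of_isBC 𝒞 φ L L' h hbc

/-- (G4c) Every line bundle becomes rigid after tensoring with the pull-back of an invertible
module of the base (the inverse of its `ε`-fibre). -/
theorem exists_rigid_tensor_pull (X : GluedModule (𝒞.chart R)) (hX : X.IsLineBundle) :
    ∃ (E : Type u) (_ : AddCommGroup E) (_ : Module R E), Module.Invertible R E ∧
      Rigid 𝒞 (tensor X (pull (𝒞.chart R) E)) :=
  G4.H7428.exists_rigid_tensor_pull 𝒞 X hX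

/-- (G4d) The rigidifying module is unique. -/
theorem equiv_of_rigid_tensor_pull (X : GluedModule (𝒞.chart R)) (hX : X.IsLineBundle)
    (E E' : Type u) [AddCommGroup E] [Module R E] [Module.Invertible R E]
    [AddCommGroup E'] [Module R E'] [Module.Invertible R E']
    (h : Rigid 𝒞 (tensor X (pull (𝒞.chart R) E)))
    (h' : Rigid 𝒞 (tensor X (pull (𝒞.chart R) E'))) : Nonempty (E ≃ₗ[R] E') :=
  G4.H7428.equiv_of_rigid_tensor_pull 𝒞 X hX E E' h h'

end G4

end Fermat.Agent.S25.TWIST
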