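/-
S25 package TWIST, leaf file G5 (STUB): Euler characteristic of a point twist over an algebraically closed field.
Statements FROZEN (captain helper9130). ALL DONE: G5 G5' = helper1451 (`G5/ChiTensorGamma1451.lean` on `Lib/Euler`); see
`BOARD_S25_TWIST.md`.
-/
import Fermat.Agent.S25.TWIST.Defs
import Fermat.Agent.S25.TWIST.G5.ChiTensorGamma1451

set_option autoImplicit false

universe u

namespace Fermat.Agent.S25.TWIST

open scoped TensorProduct

open GluedModule Ten

variable {k : Type u} [Field k] (𝒞 : CurveData k)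

/-! ### G5: Euler characteristic of a point twist over an algebraically closed field -/

section G5

variable [IsAlgClosed k] (κ : Type u) [Field κ] [IsAlgClosed κ] [Algebra k κ]

/-- (G5) `χ(M(-y)) = χ(M) - 1`, `y` a point of the first chart. -/
theorem chi_tensor_Γ₁ (M : GluedModule (𝒞.chart κ)) (hM : M.IsLineBundle) (y : 𝒞.A₁ →ₐ[k] κ) :
    chi (tensor M (Γ₁ 𝒞 y)) = chi M - 1 :=
  G5.H1451.chi_tensor_Γ₁ 𝒞 κ M hM y

/-- (G5') `χ(M(-y)) = χ(M) - 1`, `y` a point of the second chart. -/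
theorem chi_tensor_Γ₂ (M : GluedModule (𝒞.chart κ)) (hM : M.IsLineBundle) (y : 𝒞.A₂ →ₐ[k] κ) :
    chi (tensor M (Γ₂ 𝒞 y)) = chi M - 1 :=
  G5.H1451.chi_tensor_Γ₂ 𝒞 κ M hM y

end G5

end Fermat.Agent.S25.TWIST
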