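/-
S25 package TWIST, leaf file G6: effectivity over an algebraically closed field.
Statements FROZEN (captain helper9130). DONE: G6 = helper7525 (`G6/EffChain7525.lean` + `G6/H7525/*`);
see `BOARD_S25_TWIST.md`.
-/
import Fermat.Agent.S25.TWIST.Defs
import Fermat.Agent.S25.TWIST.G6.EffChain7525

set_option autoImplicit false

universe u

namespace Fermat.Agent.S25.TWIST

open scoped TensorProduct

open GluedModule Ten

variable {k : Type u} [Field k] (𝒞 : CurveData k)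

/-! ### G6: effectivity over an algebraically closed field -/

section G6

variable [IsAlgClosed k] (κ : Type u) [Field κ] [IsAlgClosed κ] [Algebra k κ]

/-- (G6) A line bundle `L` with `χ(L) = χ(O)` is `O(x₁ + … + x_g - g ε)`: a chain
`O ≅ M₀, M₁, …, M_g ≅ L` with `M_{j+1}(-x_{j+1}) ≅ M_j(-ε)`. -/
theorem eff_chain (L : GluedModule (𝒞.chart κ)) (hL : L.IsLineBundle)
    (hχ : chi L = chi (GluedModule.unit (𝒞.chart κ))) :
    ∃ M : Fin (genus 𝒞 + 1) → GluedModule (𝒞.chart κ),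
      (∀ j, (M j).IsLineBundle) ∧
      Nonempty ((M 0).Iso (GluedModule.unit (𝒞.chart κ))) ∧
      Nonempty ((M (Fin.last (genus 𝒞))).Iso L) ∧
      ∀ j : Fin (genus 𝒞),
        (∃ x : 𝒞.A₁ →ₐ[k] κ, Nonempty (Iso (tensor (M j.succ) (Γ₁ 𝒞 x))
          (tensor (M j.castSucc) (Γ₁ 𝒞 (epsPt 𝒞 κ))))) ∨
        (∃ x : 𝒞.A₂ →ₐ[k] κ, Nonempty (Iso (tensor (M j.succ) (Γ₂ 𝒞 x))
          (tensor (M j.castSucc) (Γ₁ 𝒞 (epsPt 𝒞 κ))))) :=
  G6.H7525.eff_chain 𝒞 κ L hL hχ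

end G6

end Fermat.Agent.S25.TWIST
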