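/-
S25 package TWIST: the formal derivation of `PointTwists 𝒞` from the leaf files `G1`–`G6`
(helper9130, deputy captain).  See `BOARD_S25_TWIST.md`.  No `sorry` in this file.
-/
import Fermat.Agent.S25.TWIST.G1
import Fermat.Agent.S25.TWIST.G2
import Fermat.Agent.S25.TWIST.G3
import Fermat.Agent.S25.TWIST.G4
import Fermat.Agent.S25.TWIST.G5
import Fermat.Agent.S25.TWIST.G6

set_option autoImplicit false

universe u

namespace Fermat.Agent.S25.TWIST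

open scoped TensorProduct

open GluedModule Ten

variable {k : Type u} [Field k] (𝒞 : CurveData k)

/-! ## The formal derivation of `PointTwists 𝒞` from the leaves (complete) -/

section Formal

theorem grp_cancel {G : Type*} [CommGroup G] (a c d : G) : a * c⁻¹ * d * c = a * d := by
  rw [mul_assoc (a * c⁻¹), mul_comm d c, ← mul_assoc, inv_mul_cancel_right]

theorem grp_solve {G : Type*} [CommGroup G] {l p a d : G} (h : l * p = a * d) :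
    l = a * p⁻¹ * d :=
  (eq_mul_inv_of_mul_eq h).trans (mul_right_comm _ _ _)

variable {R : Type u} [CommRing R] [Algebra k R]

theorem comp_epsPt {R' : Type u} [CommRing R'] [Algebra k R'] (φ : R →ₐ[k] R') :
    φ.comp (epsPt 𝒞 R) = epsPt 𝒞 R' := by
  ext a
  simp [epsPt, Algebra.ofId_apply]

/-- Over a field the pull-back of an invertible module is trivial. -/
theorem pull_iso_unit_of_field (κ : Type u) [Field κ] (𝔹 : TwoChart κ) (E : Type u)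
    [AddCommGroup E] [Module κ E] [Module.Invertible κ E] :
    Nonempty (Iso (pull 𝔹 E) (GluedModule.unit 𝔹)) := by
  obtain ⟨e⟩ := invertible_field_equiv κ E
  obtain ⟨i⟩ := pull_iso 𝔹 E κ e
  obtain ⟨j⟩ := pull_self_iso_unit 𝔹
  exact ⟨i.trans j⟩

/-- Over a field every line bundle is rigid. -/
theorem rigid_of_field (κ : Type u) [Field κ] [Algebra k κ] (X : GluedModule (𝒞.chart κ))
    (hX : X.IsLineBundle) : Rigid 𝒞 X := by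
  obtain ⟨E, _, _, hE, hr⟩ := exists_rigid_tensor_pull 𝒞 X hX
  obtain ⟨u⟩ := pull_iso_unit_of_field κ (𝒞.chart κ) E
  exact rigid_of_iso 𝒞 _ _ ⟨(tensorIso (Iso.refl X) u).trans (tensorUnitRight X)⟩ hr

variable [IsAlgClosed k]

/-- Existence of the twist. -/
theorem twP_exists (P : GluedModule (𝒞.chart R)) (hP : P.IsLineBundle)
    (L : GluedModule (𝒞.chart R)) (hL : L.IsLineBundle) : ∃ L', TwP 𝒞 P L L' := by
  have hQ := Γ₁_isLineBundle 𝒞 (epsPt 𝒞 R)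
  have hX : (tensor (tensor L (Γ₁ 𝒞 (epsPt 𝒞 R))) (lbDual P hP)).IsLineBundle :=
    tensor_isLineBundle (tensor_isLineBundle hL hQ) (lbDual_isLineBundle hP)
  obtain ⟨E, _, _, hE, hrig⟩ := exists_rigid_tensor_pull 𝒞 _ hX
  have hpE := pull_isLineBundle (𝒞.chart R) E
  refine ⟨_, hL, tensor_isLineBundle hX hpE, hrig, E, _, _, hE, ?_⟩
  have key : Pic.mk _ (tensor_isLineBundle (tensor_isLineBundle hX hpE) hP) =
      Pic.mk _ (tensor_isLineBundle (tensor_isLineBundle hL hQ) hpE) := by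
    change Pic.mk L hL * Pic.mk _ hQ * (Pic.mk P hP)⁻¹ * Pic.mk _ hpE * Pic.mk P hP =
      Pic.mk L hL * Pic.mk _ hQ * Pic.mk _ hpE
    exact grp_cancel _ _ _
  exact (Pic.mk_eq_mk_iff _ _).mp key

/-- Uniqueness of the twist. -/
theorem twP_unique (P : GluedModule (𝒞.chart R)) (hP : P.IsLineBundle)
    (L L' L'' : GluedModule (𝒞.chart R)) (h' : TwP 𝒞 P L L') (h'' : TwP 𝒞 P L L'') :
    Nonempty (Iso L' L'') := by
  obtain ⟨hL, hL', hr', E, _, _, hE, ⟨i'⟩⟩ := h'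
  obtain ⟨-, hL'', hr'', E'', _, _, hE'', ⟨i''⟩⟩ := h''
  have hQ := Γ₁_isLineBundle 𝒞 (epsPt 𝒞 R)
  have hpE := pull_isLineBundle (𝒞.chart R) E
  have hpE'' := pull_isLineBundle (𝒞.chart R) E''
  have hX : (tensor (tensor L (Γ₁ 𝒞 (epsPt 𝒞 R))) (lbDual P hP)).IsLineBundle :=
    tensor_isLineBundle (tensor_isLineBundle hL hQ) (lbDual_isLineBundle hP)
  have e1 : Pic.mk L' hL' * Pic.mk P hP = Pic.mk L hL * Pic.mk _ hQ * Pic.mk _ hpE :=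
    (Pic.mk_eq_mk_iff (tensor_isLineBundle hL' hP)
      (tensor_isLineBundle (tensor_isLineBundle hL hQ) hpE)).mpr ⟨i'⟩
  have e2 : Pic.mk L'' hL'' * Pic.mk P hP = Pic.mk L hL * Pic.mk _ hQ * Pic.mk _ hpE'' :=
    (Pic.mk_eq_mk_iff (tensor_isLineBundle hL'' hP)
      (tensor_isLineBundle (tensor_isLineBundle hL hQ) hpE'')).mpr ⟨i''⟩
  have f1 : Pic.mk L' hL' = Pic.mk _ (tensor_isLineBundle hX hpE) := grp_solve e1
  have f2 : Pic.mk L'' hL'' = Pic.mk _ (tensor_isLineBundle hX hpE'') := grp_solve e2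
  have r1 := rigid_of_iso 𝒞 _ _ ((Pic.mk_eq_mk_iff _ _).mp f1) hr'
  have r2 := rigid_of_iso 𝒞 _ _ ((Pic.mk_eq_mk_iff _ _).mp f2) hr''
  obtain ⟨e⟩ := equiv_of_rigid_tensor_pull 𝒞 _ hX E E'' r1 r2
  have f3 : Pic.mk _ hpE = Pic.mk _ hpE'' :=
    (Pic.mk_eq_mk_iff _ _).mpr (pull_iso (𝒞.chart R) E E'' e)
  have f4 : Pic.mk L' hL' = Pic.mk L'' hL'' := by
    rw [f1, f2]
    change Pic.mk _ hX * Pic.mk _ hpE = Pic.mk _ hX * Pic.mk _ hpE''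
    rw [f3]
  exact (Pic.mk_eq_mk_iff _ _).mp f4

omit [IsAlgClosed k] in
/-- The twist relation is invariant under isomorphisms of the two bundles. -/
theorem twP_iso (P L L' M M' : GluedModule (𝒞.chart R)) (h : TwP 𝒞 P L L')
    (e : Nonempty (L.Iso M)) (e' : Nonempty (L'.Iso M')) : TwP 𝒞 P M M' := by
  obtain ⟨hL, hL', hr, E, _, _, hE, ⟨i⟩⟩ := h
  obtain ⟨e⟩ := e
  obtain ⟨e'⟩ := e'
  refine ⟨isLineBundle_of_iso 𝒞 L M hL ⟨e⟩, isLineBundle_of_iso 𝒞 L' M' hL' ⟨e'⟩,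
    rigid_of_iso 𝒞 L' M' ⟨e'⟩ hr, E, _, _, hE, ⟨?_⟩⟩
  exact (tensorIso e'.symm (Iso.refl P)).trans
    (i.trans (tensorIso (tensorIso e (Iso.refl _)) (Iso.refl _)))

omit [IsAlgClosed k] in
/-- The twist relation is invariant under isomorphisms of the point bundle. -/
theorem twP_congr (P P' : GluedModule (𝒞.chart R)) (eP : Nonempty (Iso P P'))
    (L L' : GluedModule (𝒞.chart R)) (h : TwP 𝒞 P L L') : TwP 𝒞 P' L L' := by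
  obtain ⟨hL, hL', hr, E, _, _, hE, ⟨i⟩⟩ := h
  obtain ⟨eP⟩ := eP
  exact ⟨hL, hL', hr, E, _, _, hE, ⟨(tensorIso (Iso.refl L') eP.symm).trans i⟩⟩

/-- The twist relation commutes with base change. -/
theorem twP_bc {R' : Type u} [CommRing R'] [Algebra k R'] (φ : R →ₐ[k] R')
    (P : GluedModule (𝒞.chart R)) (P' : GluedModule (𝒞.chart R'))
    (hP : IsBC (𝒞.chartHom φ) P P') (L L' : GluedModule (𝒞.chart R))
    (M M' : GluedModule (𝒞.chart R')) (h : TwP 𝒞 P L L') (hM : IsBC (𝒞.chartHom φ) L M)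
    (hM' : IsBC (𝒞.chartHom φ) L' M') : TwP 𝒞 P' M M' := by
  obtain ⟨hL, hL', hr, E, _, _, hE, ⟨i⟩⟩ := h
  obtain ⟨E', _, _, hE', hpE⟩ := isBC_pull 𝒞 φ E
  have hQ : IsBC (𝒞.chartHom φ) (Γ₁ 𝒞 (epsPt 𝒞 R)) (Γ₁ 𝒞 (epsPt 𝒞 R')) := by
    have := isBC_Γ₁ 𝒞 φ (epsPt 𝒞 R)
    rwa [comp_epsPt] at this
  have h1 := isBC_tensor 𝒞 φ L' P M' P' hM' hP
  have h2 := isBC_tensor 𝒞 φ _ _ _ _ (isBC_tensor 𝒞 φ L _ M _ hM hQ) hpE
  have h3 := isBC_of_iso 𝒞 φ _ _ _ _ h2 ⟨i.symm⟩ ⟨Iso.refl _⟩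
  exact ⟨isLineBundle_of_isBC 𝒞 φ L M hL hM, isLineBundle_of_isBC 𝒞 φ L' M' hL' hM',
    rigid_of_isBC 𝒞 φ L' M' hr hM', E', _, _, hE', isBC_unique 𝒞 φ _ _ _ h1 h3⟩

/-- The twist of a `Pic⁰` bundle is in `Pic⁰` (the point bundle `P` has degree `-1` on every
geometric fibre). -/
theorem twP_pic0 (P : GluedModule (𝒞.chart R))
    (hχ : ∀ (κ : Type u) [Field κ] [IsAlgClosed κ] [Algebra k κ] (φ : R →ₐ[k] κ),
      ∃ Pκ : GluedModule (𝒞.chart κ), IsBC (𝒞.chartHom φ) P Pκ ∧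
        ∀ N : GluedModule (𝒞.chart κ), N.IsLineBundle → chi (tensor N Pκ) = chi N - 1)
    (L L' : GluedModule (𝒞.chart R)) (hL : IsPic0 𝒞 L) (h : TwP 𝒞 P L L') : IsPic0 𝒞 L' := by
  obtain ⟨_, hL', hr, E, _, _, hE, ⟨i⟩⟩ := h
  refine ⟨hL', hr, ?_⟩
  intro κ _ _ _ φ N' hN'
  obtain ⟨Pκ, hPκ, hχP⟩ := hχ κ φ
  obtain ⟨Lκ, hLκ⟩ := exists_isBC 𝒞 φ L
  obtain ⟨E', _, _, hE', hpE⟩ := isBC_pull 𝒞 φ E
  have hQ : IsBC (𝒞.chartHom φ) (Γ₁ 𝒞 (epsPt 𝒞 R)) (Γ₁ 𝒞 (epsPt 𝒞 κ)) := by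
    have := isBC_Γ₁ 𝒞 φ (epsPt 𝒞 R)
    rwa [comp_epsPt] at this
  have h1 := isBC_tensor 𝒞 φ L' P N' Pκ hN' hPκ
  have h2 := isBC_tensor 𝒞 φ _ _ _ _ (isBC_tensor 𝒞 φ L _ Lκ _ hLκ hQ) hpE
  have h3 := isBC_of_iso 𝒞 φ _ _ _ _ h2 ⟨i.symm⟩ ⟨Iso.refl _⟩
  obtain ⟨j⟩ := isBC_unique 𝒞 φ _ _ _ h1 h3
  obtain ⟨u⟩ := pull_iso_unit_of_field κ (𝒞.chart κ) E'
  have j' : Iso (tensor N' Pκ) (tensor Lκ (Γ₁ 𝒞 (epsPt 𝒞 κ))) :=
    j.trans ((tensorIso (Iso.refl _) u).trans (tensorUnitRight _))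
  have hN'lb := isLineBundle_of_isBC 𝒞 φ L' N' hL' hN'
  have hLκlb := isLineBundle_of_isBC 𝒞 φ L Lκ hL.lineBundle hLκ
  have c1 := hχP N' hN'lb
  have c2 := chi_tensor_Γ₁ 𝒞 κ Lκ hLκlb (epsPt 𝒞 κ)
  have c3 := chi_congr 𝒞 _ _ ⟨j'⟩
  have c4 := hL.deg0 κ φ Lκ hLκ
  omega

theorem degree_Γ₁ (x : 𝒞.A₁ →ₐ[k] R) :
    ∀ (κ : Type u) [Field κ] [IsAlgClosed κ] [Algebra k κ] (φ : R →ₐ[k] κ),
      ∃ Pκ : GluedModule (𝒞.chart κ), IsBC (𝒞.chartHom φ) (Γ₁ 𝒞 x) Pκ ∧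
        ∀ N : GluedModule (𝒞.chart κ), N.IsLineBundle → chi (tensor N Pκ) = chi N - 1 :=
  fun κ _ _ _ φ => ⟨Γ₁ 𝒞 (φ.comp x), isBC_Γ₁ 𝒞 φ x, fun N hN => chi_tensor_Γ₁ 𝒞 κ N hN _⟩

theorem degree_Γ₂ (x : 𝒞.A₂ →ₐ[k] R) :
    ∀ (κ : Type u) [Field κ] [IsAlgClosed κ] [Algebra k κ] (φ : R →ₐ[k] κ),
      ∃ Pκ : GluedModule (𝒞.chart κ), IsBC (𝒞.chartHom φ) (Γ₂ 𝒞 x) Pκ ∧
        ∀ N : GluedModule (𝒞.chart κ), N.IsLineBundle → chi (tensor N Pκ) = chi N - 1 :=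
  fun κ _ _ _ φ => ⟨Γ₂ 𝒞 (φ.comp x), isBC_Γ₂ 𝒞 φ x, fun N hN => chi_tensor_Γ₂ 𝒞 κ N hN _⟩

/-- Effectivity, in the form of the interface. -/
theorem eff (κ : Type u) [Field κ] [IsAlgClosed κ] [Algebra k κ] (L : GluedModule (𝒞.chart κ))
    (hL : IsPic0 𝒞 L) :
    ∃ M : Fin (genus 𝒞 + 1) → GluedModule (𝒞.chart κ),
      (∀ j, IsPic0 𝒞 (M j)) ∧
      Nonempty ((M 0).Iso (GluedModule.unit (𝒞.chart κ))) ∧
      Nonempty ((M (Fin.last (genus 𝒞))).Iso L) ∧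
      ∀ j : Fin (genus 𝒞), (∃ x, Tw₁ 𝒞 κ x (M j.castSucc) (M j.succ)) ∨
        (∃ x, Tw₂ 𝒞 κ x (M j.castSucc) (M j.succ)) := by
  have hχ : chi L = chi (GluedModule.unit (𝒞.chart κ)) :=
    hL.deg0 κ (AlgHom.id k κ) L ((isBC_id_iff 𝒞 L L).mpr ⟨Iso.refl L⟩)
  obtain ⟨M, hM, h0, hlast, hstep⟩ := eff_chain 𝒞 κ L hL.lineBundle hχ
  obtain ⟨s⟩ := pull_self_iso_unit (𝒞.chart κ)
  have htw : ∀ j : Fin (genus 𝒞), (∃ x, Tw₁ 𝒞 κ x (M j.castSucc) (M j.succ)) ∨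
      (∃ x, Tw₂ 𝒞 κ x (M j.castSucc) (M j.succ)) := by
    intro j
    rcases hstep j with ⟨x, ⟨i⟩⟩ | ⟨x, ⟨i⟩⟩
    · exact Or.inl ⟨x, hM _, hM _, rigid_of_field 𝒞 κ _ (hM _), κ, _, _, inferInstance,
        ⟨i.trans ((tensorUnitRight _).symm.trans (tensorIso (Iso.refl _) s.symm))⟩⟩
    · exact Or.inr ⟨x, hM _, hM _, rigid_of_field 𝒞 κ _ (hM _), κ, _, _, inferInstance,
        ⟨i.trans ((tensorUnitRight _).symm.trans (tensorIso (Iso.refl _) s.symm))⟩⟩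
  refine ⟨M, ?_, h0, hlast, htw⟩
  have key : ∀ (n : ℕ) (hn : n < genus 𝒞 + 1), IsPic0 𝒞 (M ⟨n, hn⟩) := by
    intro n
    induction n with
    | zero =>
      intro hn
      obtain ⟨i0⟩ := h0
      exact isPic0_of_iso 𝒞 _ _ (isPic0_unit 𝒞 κ) ⟨i0.symm⟩
    | succ n ih =>
      intro hn
      have hn' : n < genus 𝒞 := by omega
      have ihn := ih (by omega)
      rcases htw ⟨n, hn'⟩ with ⟨x, hx⟩ | ⟨x, hx⟩
      · exact twP_pic0 𝒞 _ (degree_Γ₁ 𝒞 x) _ _ ihn hx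
      · exact twP_pic0 𝒞 _ (degree_Γ₂ 𝒞 x) _ _ ihn hx
  exact fun j => key j.1 j.2

/-- **The package**: point twists exist. -/
theorem exists_pointTwists_of_leaves : Nonempty (PointTwists 𝒞) :=
  ⟨{ genus := genus 𝒞
     tw₁ := fun R _ _ x L L' => Tw₁ 𝒞 R x L L'
     tw₂ := fun R _ _ x L L' => Tw₂ 𝒞 R x L L'
     exists₁ := fun x L hL => by
       obtain ⟨L', h⟩ := twP_exists 𝒞 (Γ₁ 𝒞 x) (Γ₁_isLineBundle 𝒞 x) L hL.lineBundle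
       exact ⟨L', twP_pic0 𝒞 _ (degree_Γ₁ 𝒞 x) L L' hL h, h⟩
     exists₂ := fun x L hL => by
       obtain ⟨L', h⟩ := twP_exists 𝒞 (Γ₂ 𝒞 x) (Γ₂_isLineBundle 𝒞 x) L hL.lineBundle
       exact ⟨L', twP_pic0 𝒞 _ (degree_Γ₂ 𝒞 x) L L' hL h, h⟩
     pic0₁ := fun x L L' hL h => twP_pic0 𝒞 _ (degree_Γ₁ 𝒞 x) L L' hL h
     pic0₂ := fun x L L' hL h => twP_pic0 𝒞 _ (degree_Γ₂ 𝒞 x) L L' hL h
     unique₁ := fun x L L' L'' _ _ _ h' h'' =>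
       twP_unique 𝒞 _ (Γ₁_isLineBundle 𝒞 x) L L' L'' h' h''
     unique₂ := fun x L L' L'' _ _ _ h' h'' =>
       twP_unique 𝒞 _ (Γ₂_isLineBundle 𝒞 x) L L' L'' h' h''
     iso₁ := fun x L L' M M' h e e' => twP_iso 𝒞 _ L L' M M' h e e'
     iso₂ := fun x L L' M M' h e e' => twP_iso 𝒞 _ L L' M M' h e e'
     bc₁ := fun φ x L L' M M' h hM hM' => twP_bc 𝒞 φ _ _ (isBC_Γ₁ 𝒞 φ x) L L' M M' h hM hM'
     bc₂ := fun φ x L L' M M' h hM hM' => twP_bc 𝒞 φ _ _ (isBC_Γ₂ 𝒞 φ x) L L' M M' h hM hM'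
     overlap := fun x L L' =>
       ⟨fun h => twP_congr 𝒞 _ _ (Γ_overlap 𝒞 x) L L' h,
        fun h => twP_congr 𝒞 _ _ ((Γ_overlap 𝒞 x).map Iso.symm) L L' h⟩
     eff := fun κ _ _ _ L hL => eff 𝒞 κ L hL }⟩

end Formal

end Fermat.Agent.S25.TWIST
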